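/-
A3 / S19, route U, piece U0 (helper855): abstract successive-approximation lemma.

`FactorData A` : a commutative ring `A` with a decreasing multiplicative filtration `J k`,
three additive subgroups `X₁ X₂ X₃ ≤ J 1` (the first two closed under multiplication) which split
every `J k` as a direct sum, and a "multiplicative parametrisation" `z` of `X₃`
(`z (x + e) ≡ z x * (1 + e) mod J (k+1)` for `e ∈ J k`).

Main results:
* `FactorData.approx_exists` : every `u ∈ 1 + J 1` is, modulo `J k`, of the form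
  `(1 + x₁) * (1 + x₂) * z x₃` with `x_i ∈ X_i`;
* `FactorData.approx_unique` : the `x_i` are unique modulo `J k`.
No unit, completeness or nilpotency hypothesis is used.
-/
import Mathlib.RingTheory.Ideal.Operations
import Mathlib.Tactic

set_option autoImplicit false

namespace Fermat.Agent.S19.H855

/-- Abstract data for the multiplicative factorisation lemma. -/
structure FactorData (A : Type*) [CommRing A] where
  /-- the filtration -/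
  J : ℕ → Ideal A
  J_anti : ∀ k, J (k + 1) ≤ J k
  J_mul : ∀ a b x y, x ∈ J a → y ∈ J b → x * y ∈ J (a + b)
  /-- the three pieces -/
  X₁ : AddSubgroup A
  X₂ : AddSubgroup A
  X₃ : AddSubgroup A
  X₁_le : ∀ x ∈ X₁, x ∈ J 1
  X₂_le : ∀ x ∈ X₂, x ∈ J 1
  X₃_le : ∀ x ∈ X₃, x ∈ J 1
  X₁_mul : ∀ x ∈ X₁, ∀ y ∈ X₁, x * y ∈ X₁
  X₂_mul : ∀ x ∈ X₂, ∀ y ∈ X₂, x * y ∈ X₂
  /-- the multiplicative parametrisation of the third piece -/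
  z : A → A
  z_sub_one : ∀ x ∈ X₃, z x - 1 ∈ J 1
  z_add : ∀ k, 1 ≤ k → ∀ x ∈ X₃, ∀ e ∈ X₃, e ∈ J k → z (x + e) - z x * (1 + e) ∈ J (k + 1)
  split : ∀ k, 1 ≤ k → ∀ y ∈ J k, ∃ y₁ ∈ X₁, ∃ y₂ ∈ X₂, ∃ y₃ ∈ X₃,
    y₁ ∈ J k ∧ y₂ ∈ J k ∧ y₃ ∈ J k ∧ y = y₁ + y₂ + y₃
  direct : ∀ k, 1 ≤ k → ∀ y₁ ∈ X₁, ∀ y₂ ∈ X₂, ∀ y₃ ∈ X₃, y₁ + y₂ + y₃ ∈ J k →
    y₁ ∈ J k ∧ y₂ ∈ J k ∧ y₃ ∈ J k

namespace FactorData

variable {A : Type*} [CommRing A] (D : FactorData A)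

theorem J_le {m n : ℕ} (h : m ≤ n) : D.J n ≤ D.J m := by
  induction h with
  | refl => exact le_rfl
  | step _ ih => exact (D.J_anti _).trans ih

theorem mul_mem_succ {k : ℕ} {x y : A} (hx : x ∈ D.J k) (hy : y ∈ D.J 1) :
    x * y ∈ D.J (k + 1) :=
  D.J_mul k 1 x y hx hy

theorem mul_mem_succ' {k : ℕ} {x y : A} (hx : x ∈ D.J 1) (hy : y ∈ D.J k) :
    x * y ∈ D.J (k + 1) := by
  rw [mul_comm]; exact D.mul_mem_succ hy hx

theorem mul_mem_succ_of_both {k : ℕ} (hk : 1 ≤ k) {x y : A} (hx : x ∈ D.J k) (hy : y ∈ D.J k) :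
    x * y ∈ D.J (k + 1) :=
  D.J_le (by omega) (D.J_mul k k x y hx hy)

/-- `(1 + x) * (1 + y) - 1 ∈ X₁` for `x y ∈ X₁`. -/
theorem X₁_comp {x y : A} (hx : x ∈ D.X₁) (hy : y ∈ D.X₁) : x + y + x * y ∈ D.X₁ :=
  D.X₁.add_mem (D.X₁.add_mem hx hy) (D.X₁_mul x hx y hy)

theorem X₂_comp {x y : A} (hx : x ∈ D.X₂) (hy : y ∈ D.X₂) : x + y + x * y ∈ D.X₂ :=
  D.X₂.add_mem (D.X₂.add_mem hx hy) (D.X₂_mul x hx y hy)

/-- The value of a factorisation. -/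
def val (x₁ x₂ x₃ : A) : A := (1 + x₁) * (1 + x₂) * D.z x₃

theorem val_sub_one_mem {x₁ x₂ x₃ : A} (h₁ : x₁ ∈ D.X₁) (h₂ : x₂ ∈ D.X₂) (h₃ : x₃ ∈ D.X₃) :
    D.val x₁ x₂ x₃ - 1 ∈ D.J 1 := by
  have e : D.val x₁ x₂ x₃ - 1
      = x₁ * ((1 + x₂) * D.z x₃) + x₂ * D.z x₃ + (D.z x₃ - 1) := by
    unfold val; ring
  rw [e]
  exact (D.J 1).add_mem ((D.J 1).add_mem ((D.J 1).mul_mem_right _ (D.X₁_le _ h₁))
    ((D.J 1).mul_mem_right _ (D.X₂_le _ h₂))) (D.z_sub_one _ h₃)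

/-- Approximate existence of the factorisation. -/
theorem approx_exists (k : ℕ) (hk : 1 ≤ k) (u : A) (hu : u - 1 ∈ D.J 1) :
    ∃ x₁ ∈ D.X₁, ∃ x₂ ∈ D.X₂, ∃ x₃ ∈ D.X₃, u - D.val x₁ x₂ x₃ ∈ D.J k := by
  induction k, hk using Nat.le_induction with
  | base =>
    refine ⟨0, D.X₁.zero_mem, 0, D.X₂.zero_mem, 0, D.X₃.zero_mem, ?_⟩
    have h := D.val_sub_one_mem D.X₁.zero_mem D.X₂.zero_mem D.X₃.zero_mem
    have e : u - D.val 0 0 0 = (u - 1) - (D.val 0 0 0 - 1) := by ring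
    rw [e]
    exact (D.J 1).sub_mem hu h
  | succ k hk ih =>
    obtain ⟨x₁, h₁, x₂, h₂, x₃, h₃, he⟩ := ih
    obtain ⟨a, ha, b, hb, c, hc, hak, hbk, hck, habc⟩ := D.split k hk _ he
    refine ⟨x₁ + a + x₁ * a, D.X₁_comp h₁ ha, x₂ + b + x₂ * b, D.X₂_comp h₂ hb,
      x₃ + c, D.X₃.add_mem h₃ hc, ?_⟩
    have hδ := D.z_add k hk x₃ h₃ c hc hck
    have hF := D.val_sub_one_mem h₁ h₂ h₃
    set F := D.val x₁ x₂ x₃ with hFdef
    set δ := D.z (x₃ + c) - D.z x₃ * (1 + c) with hδdef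
    have hu' : u = F + (a + b + c) := by rw [← habc]; ring
    have hz : D.z (x₃ + c) = D.z x₃ * (1 + c) + δ := by rw [hδdef]; ring
    have e : u - D.val (x₁ + a + x₁ * a) (x₂ + b + x₂ * b) (x₃ + c)
        = (a + b + c) * (-(F - 1)) - F * (a * b + a * c + b * c + a * b * c)
          - (1 + x₁) * (1 + x₂) * (1 + a) * (1 + b) * δ := by
      rw [hu']
      unfold val at hFdef ⊢
      rw [hz, hFdef]
      ring
    rw [e]
    have habck : a + b + c ∈ D.J k := (D.J k).add_mem ((D.J k).add_mem hak hbk) hck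
    refine (D.J (k + 1)).sub_mem ((D.J (k + 1)).sub_mem ?_ ?_) ?_
    · exact D.mul_mem_succ habck ((D.J 1).neg_mem hF)
    · refine (D.J (k + 1)).mul_mem_left _ ?_
      refine (D.J (k + 1)).add_mem ((D.J (k + 1)).add_mem ((D.J (k + 1)).add_mem ?_ ?_) ?_) ?_
      · exact D.mul_mem_succ_of_both hk hak hbk
      · exact D.mul_mem_succ_of_both hk hak hck
      · exact D.mul_mem_succ_of_both hk hbk hck
      · exact (D.J (k + 1)).mul_mem_right _ (D.mul_mem_succ_of_both hk hak hbk)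
    · exact (D.J (k + 1)).mul_mem_left _ hδ

/-- Approximate uniqueness of the factorisation. -/
theorem approx_unique (k : ℕ) (hk : 1 ≤ k) {x₁ x₂ x₃ y₁ y₂ y₃ : A}
    (hx₁ : x₁ ∈ D.X₁) (hx₂ : x₂ ∈ D.X₂) (hx₃ : x₃ ∈ D.X₃)
    (hy₁ : y₁ ∈ D.X₁) (hy₂ : y₂ ∈ D.X₂) (hy₃ : y₃ ∈ D.X₃)
    (h : D.val y₁ y₂ y₃ - D.val x₁ x₂ x₃ ∈ D.J k) :
    y₁ - x₁ ∈ D.J k ∧ y₂ - x₂ ∈ D.J k ∧ y₃ - x₃ ∈ D.J k := by
  induction k, hk using Nat.le_induction with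
  | base =>
    exact ⟨(D.J 1).sub_mem (D.X₁_le _ hy₁) (D.X₁_le _ hx₁),
      (D.J 1).sub_mem (D.X₂_le _ hy₂) (D.X₂_le _ hx₂),
      (D.J 1).sub_mem (D.X₃_le _ hy₃) (D.X₃_le _ hx₃)⟩
  | succ k hk ih =>
    obtain ⟨h1, h2, h3⟩ := ih (D.J_anti k h)
    set d₁ := y₁ - x₁ with hd₁
    set d₂ := y₂ - x₂ with hd₂
    set d₃ := y₃ - x₃ with hd₃
    have hd₁X : d₁ ∈ D.X₁ := D.X₁.sub_mem hy₁ hx₁
    have hd₂X : d₂ ∈ D.X₂ := D.X₂.sub_mem hy₂ hx₂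
    have hd₃X : d₃ ∈ D.X₃ := D.X₃.sub_mem hy₃ hx₃
    have hy₃' : y₃ = x₃ + d₃ := by rw [hd₃]; ring
    have hδ := D.z_add k hk x₃ hx₃ d₃ hd₃X h3
    rw [← hy₃'] at hδ
    set δ := D.z y₃ - D.z x₃ * (1 + d₃) with hδdef
    have hz : D.z y₃ = D.z x₃ * (1 + d₃) + δ := by rw [hδdef]; ring
    set Z := D.z x₃ with hZ
    have hZ1 : Z - 1 ∈ D.J 1 := D.z_sub_one _ hx₃
    have hx₁J := D.X₁_le _ hx₁
    have hx₂J := D.X₂_le _ hx₂
    have key : d₁ + d₂ + d₃ ∈ D.J (k + 1) := by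
      have e : d₁ + d₂ + d₃ = (D.val y₁ y₂ y₃ - D.val x₁ x₂ x₃)
          - d₃ * (Z * (1 + x₁) * (1 + x₂) - 1) - d₂ * (Z * (1 + x₁) - 1)
          - d₁ * (Z * (1 + x₂) - 1)
          - Z * (d₁ * d₂ + ((1 + x₁) * d₂ + d₁ * (1 + x₂) + d₁ * d₂) * d₃)
          - (1 + y₁) * (1 + y₂) * δ := by
        unfold val
        rw [hz]
        have e1 : y₁ = x₁ + d₁ := by rw [hd₁]; ring
        have e2 : y₂ = x₂ + d₂ := by rw [hd₂]; ring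
        rw [e1, e2]
        ring
      rw [e]
      have m1 : Z * (1 + x₁) * (1 + x₂) - 1 ∈ D.J 1 := by
        have : Z * (1 + x₁) * (1 + x₂) - 1
            = (Z - 1) * ((1 + x₁) * (1 + x₂)) + x₁ * (1 + x₂) + x₂ := by ring
        rw [this]
        exact (D.J 1).add_mem ((D.J 1).add_mem ((D.J 1).mul_mem_right _ hZ1)
          ((D.J 1).mul_mem_right _ hx₁J)) hx₂J
      have m2 : Z * (1 + x₁) - 1 ∈ D.J 1 := by
        have : Z * (1 + x₁) - 1 = (Z - 1) * (1 + x₁) + x₁ := by ring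
        rw [this]
        exact (D.J 1).add_mem ((D.J 1).mul_mem_right _ hZ1) hx₁J
      have m3 : Z * (1 + x₂) - 1 ∈ D.J 1 := by
        have : Z * (1 + x₂) - 1 = (Z - 1) * (1 + x₂) + x₂ := by ring
        rw [this]
        exact (D.J 1).add_mem ((D.J 1).mul_mem_right _ hZ1) hx₂J
      refine (D.J (k + 1)).sub_mem ((D.J (k + 1)).sub_mem ((D.J (k + 1)).sub_mem
        ((D.J (k + 1)).sub_mem ((D.J (k + 1)).sub_mem h ?_) ?_) ?_) ?_) ?_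
      · exact D.mul_mem_succ h3 m1
      · exact D.mul_mem_succ h2 m2
      · exact D.mul_mem_succ h1 m3
      · refine (D.J (k + 1)).mul_mem_left _ ((D.J (k + 1)).add_mem ?_ ?_)
        · exact D.mul_mem_succ_of_both hk h1 h2
        · have : (1 + x₁) * d₂ + d₁ * (1 + x₂) + d₁ * d₂ ∈ D.J k :=
            (D.J k).add_mem ((D.J k).add_mem ((D.J k).mul_mem_left _ h2)
              ((D.J k).mul_mem_right _ h1)) ((D.J k).mul_mem_right _ h1)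
          exact D.mul_mem_succ_of_both hk this h3
      · exact (D.J (k + 1)).mul_mem_left _ hδ
    exact D.direct (k + 1) (by omega) d₁ hd₁X d₂ hd₂X d₃ hd₃X key

/-- Exact existence and uniqueness when the filtration terminates. -/
theorem exists_unique_of_eq_bot {N : ℕ} (hN : 1 ≤ N) (hbot : D.J N = ⊥) (u : A)
    (hu : u - 1 ∈ D.J 1) :
    ∃ x₁ ∈ D.X₁, ∃ x₂ ∈ D.X₂, ∃ x₃ ∈ D.X₃, u = D.val x₁ x₂ x₃ ∧
      ∀ y₁ ∈ D.X₁, ∀ y₂ ∈ D.X₂, ∀ y₃ ∈ D.X₃, u = D.val y₁ y₂ y₃ →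
        y₁ = x₁ ∧ y₂ = x₂ ∧ y₃ = x₃ := by
  obtain ⟨x₁, h₁, x₂, h₂, x₃, h₃, h⟩ := D.approx_exists N hN u hu
  rw [hbot, Ideal.mem_bot, sub_eq_zero] at h
  refine ⟨x₁, h₁, x₂, h₂, x₃, h₃, h, fun y₁ hy₁ y₂ hy₂ y₃ hy₃ hy => ?_⟩
  have hd : D.val y₁ y₂ y₃ - D.val x₁ x₂ x₃ ∈ D.J N := by
    rw [← hy, ← h, sub_self]; exact (D.J N).zero_mem
  obtain ⟨a, b, c⟩ := D.approx_unique N hN h₁ h₂ h₃ hy₁ hy₂ hy₃ hd
  rw [hbot, Ideal.mem_bot, sub_eq_zero] at a b c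
  exact ⟨a, b, c⟩

end FactorData

end Fermat.Agent.S19.H855
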