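/-
A3 / S19, route U, piece U0 (helper855): the multiplicative Riemann–Roch factorisation.

For a Riemann–Roch splitting `sp` of `S((t))` and an ideal `𝔫` of `S`, every Laurent series
`u ≡ 1 mod 𝔫` factors, modulo `𝔫 ^ k` for every `k` (exactly if `𝔫` is nilpotent), as
    u = (1 + x₁) * (1 + x₂) * ∏_{j ∈ G} (1 + ζ_j t^{-j}),
`x₁ ∈ 𝔫 B`, `x₂ ∈ 𝔫 t S[[t]]`, `ζ_j ∈ 𝔫`, and the factors are unique (modulo `𝔫 ^ k`).
-/
import Fermat.Agent.S19.H855.Splitting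

set_option autoImplicit false

open HahnSeries

namespace Fermat.Agent.S19.H855

section RingLemmas

variable {A : Type*} [CommRing A] {ι : Type*} [DecidableEq ι]

theorem prod_one_add_sub_one_mem (I : Ideal A) (s : Finset ι) (a : ι → A)
    (h : ∀ i ∈ s, a i ∈ I) : ∏ i ∈ s, (1 + a i) - 1 ∈ I := by
  induction s using Finset.induction_on with
  | empty => simp
  | insert j s hj ih =>
    rw [Finset.prod_insert hj]
    have e : (1 + a j) * ∏ i ∈ s, (1 + a i) - 1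
        = a j * ∏ i ∈ s, (1 + a i) + (∏ i ∈ s, (1 + a i) - 1) := by ring
    rw [e]
    exact I.add_mem (I.mul_mem_right _ (h j (Finset.mem_insert_self j s)))
      (ih fun i hi => h i (Finset.mem_insert_of_mem hi))

theorem prod_add_approx (I1 Ik Ik1 : Ideal A)
    (h1 : ∀ x ∈ Ik, ∀ y ∈ I1, x * y ∈ Ik1) (h2 : ∀ x ∈ Ik, ∀ y ∈ Ik, x * y ∈ Ik1)
    (s : Finset ι) (a e : ι → A) (ha : ∀ i ∈ s, a i ∈ I1) (he : ∀ i ∈ s, e i ∈ Ik) :
    ∏ i ∈ s, (1 + (a i + e i)) - (∏ i ∈ s, (1 + a i)) * (1 + ∑ i ∈ s, e i) ∈ Ik1 := by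
  induction s using Finset.induction_on with
  | empty => simp
  | insert j s hj ih =>
    rw [Finset.prod_insert hj, Finset.prod_insert hj, Finset.sum_insert hj]
    have ih' := ih (fun i hi => ha i (Finset.mem_insert_of_mem hi))
      (fun i hi => he i (Finset.mem_insert_of_mem hi))
    set P' := ∏ i ∈ s, (1 + (a i + e i))
    set P := ∏ i ∈ s, (1 + a i)
    set Se := ∑ i ∈ s, e i
    have hSe : Se ∈ Ik := Ik.sum_mem fun i hi => he i (Finset.mem_insert_of_mem hi)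
    have hej := he j (Finset.mem_insert_self j s)
    have haj := ha j (Finset.mem_insert_self j s)
    have e1 : (1 + (a j + e j)) * P' - (1 + a j) * P * (1 + (e j + Se))
        = (e j * Se) * P - (e j * a j) * P + (1 + a j + e j) * (P' - P * (1 + Se)) := by ring
    rw [e1]
    exact Ik1.add_mem (Ik1.sub_mem (Ik1.mul_mem_right _ (h2 _ hej _ hSe))
      (Ik1.mul_mem_right _ (h1 _ hej _ haj))) (Ik1.mul_mem_left _ ih')

end RingLemmas

variable {S : Type*} [CommRing S]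

/-- `∑_{j ∈ G} c_j t^{-j}`. -/
noncomputable def gsum (G : Finset ℕ) (c : ℕ → S) : LaurentSeries S :=
  ∑ j ∈ G, single (-(j : ℤ)) (c j)

/-- `∏_{j ∈ G} (1 + c_j t^{-j})`. -/
noncomputable def zprod (G : Finset ℕ) (c : ℕ → S) : LaurentSeries S :=
  ∏ j ∈ G, (1 + single (-(j : ℤ)) (c j))

theorem coeff_gsum (G : Finset ℕ) (c : ℕ → S) (n : ℤ) :
    (gsum G c).coeff n = ∑ j ∈ G, if n = -(j : ℤ) then c j else 0 := by
  unfold gsum
  rw [HahnSeries.coeff_sum]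
  refine Finset.sum_congr rfl fun j _ => ?_
  by_cases h : n = -(j : ℤ)
  · rw [if_pos h, h, HahnSeries.coeff_single_same]
  · rw [if_neg h, HahnSeries.coeff_single_of_ne h]

theorem coeff_gsum_neg_of_mem (G : Finset ℕ) (c : ℕ → S) {j : ℕ} (hj : j ∈ G) :
    (gsum G c).coeff (-(j : ℤ)) = c j := by
  rw [coeff_gsum]
  have : ∀ i ∈ G, (if (-(j : ℤ)) = -(i : ℤ) then c i else 0) = if j = i then c i else 0 := by
    intro i _
    by_cases h : j = i
    · subst h; simp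
    · rw [if_neg h, if_neg]
      intro h'
      apply h
      exact_mod_cast neg_injective h'
  rw [Finset.sum_congr rfl this, Finset.sum_ite_eq, if_pos hj]

theorem coeff_gsum_of_forall_ne (G : Finset ℕ) (c : ℕ → S) {n : ℤ}
    (hn : ∀ j ∈ G, n ≠ -(j : ℤ)) : (gsum G c).coeff n = 0 := by
  rw [coeff_gsum]
  exact Finset.sum_eq_zero fun j hj => if_neg (hn j hj)

theorem gsum_mem_coeffIdeal (G : Finset ℕ) (c : ℕ → S) {I : Ideal S} (h : ∀ j ∈ G, c j ∈ I) :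
    gsum G c ∈ coeffIdeal I :=
  (coeffIdeal I).sum_mem fun j hj => single_mem_coeffIdeal (h j hj) _

namespace RRSplitting

variable (sp : RRSplitting S) (𝔫 : Ideal S)

/-- `𝔫 B`: elements of the span of the `b n` with coefficients in `𝔫`. -/
def X1 : AddSubgroup (LaurentSeries S) where
  carrier := {x | sp.IsB x ∧ x ∈ coeffIdeal 𝔫}
  add_mem' := fun hx hy => ⟨sp.Bsub.add_mem hx.1 hy.1, (coeffIdeal 𝔫).add_mem hx.2 hy.2⟩
  zero_mem' := ⟨sp.Bsub.zero_mem, (coeffIdeal 𝔫).zero_mem⟩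
  neg_mem' := fun hx => ⟨sp.Bsub.neg_mem hx.1, (coeffIdeal 𝔫).neg_mem hx.2⟩

/-- `𝔫 t S[[t]]`. -/
def X2 (𝔫 : Ideal S) : AddSubgroup (LaurentSeries S) where
  carrier := {x | x ∈ coeffIdeal 𝔫 ∧ ∀ n : ℤ, n ≤ 0 → x.coeff n = 0}
  add_mem' := fun hx hy => ⟨(coeffIdeal 𝔫).add_mem hx.1 hy.1, fun n hn => by
    rw [HahnSeries.coeff_add, hx.2 n hn, hy.2 n hn, add_zero]⟩
  zero_mem' := ⟨(coeffIdeal 𝔫).zero_mem, fun n _ => by simp⟩
  neg_mem' := fun hx => ⟨(coeffIdeal 𝔫).neg_mem hx.1, fun n hn => by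
    rw [HahnSeries.coeff_neg, hx.2 n hn, neg_zero]⟩

/-- `⊕_{j ∈ G} 𝔫 t^{-j}`. -/
def X3 : AddSubgroup (LaurentSeries S) where
  carrier := {x | x ∈ coeffIdeal 𝔫 ∧ ∀ n : ℤ, (∀ j ∈ sp.G, n ≠ -(j : ℤ)) → x.coeff n = 0}
  add_mem' := fun hx hy => ⟨(coeffIdeal 𝔫).add_mem hx.1 hy.1, fun n hn => by
    rw [HahnSeries.coeff_add, hx.2 n hn, hy.2 n hn, add_zero]⟩
  zero_mem' := ⟨(coeffIdeal 𝔫).zero_mem, fun n _ => by simp⟩
  neg_mem' := fun hx => ⟨(coeffIdeal 𝔫).neg_mem hx.1, fun n hn => by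
    rw [HahnSeries.coeff_neg, hx.2 n hn, neg_zero]⟩

variable {sp 𝔫}

theorem mem_X1 {x : LaurentSeries S} : x ∈ sp.X1 𝔫 ↔ sp.IsB x ∧ x ∈ coeffIdeal 𝔫 := Iff.rfl

theorem mem_X2 {x : LaurentSeries S} :
    x ∈ X2 𝔫 ↔ x ∈ coeffIdeal 𝔫 ∧ ∀ n : ℤ, n ≤ 0 → x.coeff n = 0 := Iff.rfl

theorem mem_X3 {x : LaurentSeries S} :
    x ∈ sp.X3 𝔫 ↔ x ∈ coeffIdeal 𝔫 ∧ ∀ n : ℤ, (∀ j ∈ sp.G, n ≠ -(j : ℤ)) → x.coeff n = 0 :=
  Iff.rfl

theorem coeff_mul_eq_zero_of_nonpos {x y : LaurentSeries S}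
    (hx : ∀ n : ℤ, n ≤ 0 → x.coeff n = 0) (hy : ∀ n : ℤ, n ≤ 0 → y.coeff n = 0)
    {n : ℤ} (hn : n ≤ 0) : (x * y).coeff n = 0 := by
  rw [HahnSeries.coeff_mul]
  refine Finset.sum_eq_zero fun ij hij => ?_
  rw [Finset.mem_antidiagonal] at hij
  obtain ⟨-, -, h⟩ := hij
  by_cases h1 : ij.1 ≤ 0
  · rw [hx _ h1, zero_mul]
  · have h2 : ij.2 ≤ 0 := by omega
    rw [hy _ h2, mul_zero]

theorem eq_gsum_of_mem_X3 {x : LaurentSeries S} (hx : x ∈ sp.X3 𝔫) :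
    x = gsum sp.G fun j => x.coeff (-(j : ℤ)) := by
  ext n
  by_cases h : ∀ j ∈ sp.G, n ≠ -(j : ℤ)
  · rw [hx.2 n h, coeff_gsum_of_forall_ne _ _ h]
  · push Not at h
    obtain ⟨j, hj, rfl⟩ := h
    rw [coeff_gsum_neg_of_mem _ _ hj]

theorem gsum_mem_X3 (c : ℕ → S) (h : ∀ j ∈ sp.G, c j ∈ 𝔫) : gsum sp.G c ∈ sp.X3 𝔫 :=
  ⟨gsum_mem_coeffIdeal _ _ h, fun _ hn => coeff_gsum_of_forall_ne _ _ hn⟩

variable (sp 𝔫)

/-- The multiplicative parametrisation of the gap part. -/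
noncomputable def zfun (x : LaurentSeries S) : LaurentSeries S :=
  zprod sp.G fun j => x.coeff (-(j : ℤ))

/-- The abstract factorisation data attached to a splitting and an ideal. -/
noncomputable def factorData : FactorData (LaurentSeries S) where
  J k := coeffIdeal (𝔫 ^ k)
  J_anti k := coeffIdeal_mono (Ideal.pow_le_pow_right (Nat.le_succ k))
  J_mul a b x y hx hy := pow_mul_mem_coeffIdeal hx hy
  X₁ := sp.X1 𝔫
  X₂ := X2 𝔫
  X₃ := sp.X3 𝔫
  X₁_le x hx := by rw [pow_one]; exact hx.2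
  X₂_le x hx := by rw [pow_one]; exact hx.1
  X₃_le x hx := by rw [pow_one]; exact hx.1
  X₁_mul x hx y hy := ⟨hx.1.mul sp hy.1, (coeffIdeal 𝔫).mul_mem_left _ hy.2⟩
  X₂_mul x hx y hy := ⟨(coeffIdeal 𝔫).mul_mem_left _ hy.1,
    fun n hn => coeff_mul_eq_zero_of_nonpos hx.2 hy.2 hn⟩
  z := sp.zfun
  z_sub_one x hx := by
    rw [pow_one]
    exact prod_one_add_sub_one_mem _ _ _ fun j _ => single_mem_coeffIdeal (hx.1 _) _
  z_add k hk x hx e he hek := by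
    have h := prod_add_approx (coeffIdeal (𝔫 ^ 1)) (coeffIdeal (𝔫 ^ k)) (coeffIdeal (𝔫 ^ (k + 1)))
      (fun x hx y hy => pow_mul_mem_coeffIdeal hx hy)
      (fun x hx y hy => coeffIdeal_mono (Ideal.pow_le_pow_right (by omega))
        (pow_mul_mem_coeffIdeal hx hy))
      sp.G (fun j => single (-(j : ℤ)) (x.coeff (-(j : ℤ))))
      (fun j => single (-(j : ℤ)) (e.coeff (-(j : ℤ))))
      (fun j _ => by rw [pow_one]; exact single_mem_coeffIdeal (hx.1 _) _)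
      (fun j _ => single_mem_coeffIdeal (hek _) _)
    have e1 : sp.zfun (x + e)
        = ∏ j ∈ sp.G, (1 + (single (-(j : ℤ)) (x.coeff (-(j : ℤ)))
            + single (-(j : ℤ)) (e.coeff (-(j : ℤ))))) := by
      unfold zfun zprod
      refine Finset.prod_congr rfl fun j _ => ?_
      show 1 + single (-(j : ℤ)) ((x + e).coeff (-(j : ℤ))) = _
      rw [HahnSeries.coeff_add, HahnSeries.single_add]
    have e2 : (1 : LaurentSeries S) + e
        = 1 + ∑ j ∈ sp.G, single (-(j : ℤ)) (e.coeff (-(j : ℤ))) := by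
      conv_lhs => rw [eq_gsum_of_mem_X3 he]
      rfl
    rw [e1, e2]
    exact h
  split k hk y hy := by
    have hy1 : projB sp.G sp.b y ∈ coeffIdeal (𝔫 ^ k) := sp.projB_mem_coeffIdeal hy
    set ρ := y - projB sp.G sp.b y with hρ
    have hρk : ρ ∈ coeffIdeal (𝔫 ^ k) := (coeffIdeal _).sub_mem hy hy1
    have hρ0 : ∀ m : ℕ, m ∉ sp.G → ρ.coeff (-(m : ℤ)) = 0 := by
      intro m hm
      rw [hρ, HahnSeries.coeff_sub, sp.coeff_projB y hm, sub_self]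
    set y₃ := gsum sp.G fun j => ρ.coeff (-(j : ℤ)) with hy₃
    have hy₃k : y₃ ∈ coeffIdeal (𝔫 ^ k) := gsum_mem_coeffIdeal _ _ fun j _ => hρk _
    have hle : 𝔫 ^ k ≤ 𝔫 := Ideal.pow_le_self (by omega)
    refine ⟨projB sp.G sp.b y, ⟨sp.isB_projB y, coeffIdeal_mono hle hy1⟩,
      ρ - y₃, ⟨coeffIdeal_mono hle ((coeffIdeal _).sub_mem hρk hy₃k), ?_⟩,
      y₃, gsum_mem_X3 _ fun j _ => hle (hρk _), hy1, (coeffIdeal _).sub_mem hρk hy₃k, hy₃k, ?_⟩
    · intro n hn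
      obtain ⟨m, rfl⟩ : ∃ m : ℕ, n = -(m : ℤ) := ⟨n.natAbs, by omega⟩
      rw [HahnSeries.coeff_sub]
      by_cases hm : m ∈ sp.G
      · rw [hy₃, coeff_gsum_neg_of_mem _ _ hm, sub_self]
      · rw [hρ0 m hm, hy₃, coeff_gsum_of_forall_ne, sub_zero]
        intro j hj h
        apply hm
        have : (m : ℤ) = j := neg_injective h
        have hmj' : m = j := by exact_mod_cast this
        exact hmj' ▸ hj
    · rw [hρ]; ring
  direct k hk y₁ h₁ y₂ h₂ y₃ h₃ h := by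
    have hy₁ : y₁ ∈ coeffIdeal (𝔫 ^ k) := by
      refine h₁.1.mem_coeffIdeal sp fun m hm => ?_
      have := h (-(m : ℤ))
      rw [HahnSeries.coeff_add, HahnSeries.coeff_add, h₂.2 _ (by omega), h₃.2 _ ?_, add_zero,
        add_zero] at this
      · exact this
      · intro j hj hmj
        apply hm
        have : (m : ℤ) = j := neg_injective hmj
        have hmj' : m = j := by exact_mod_cast this
        exact hmj' ▸ hj
    have h23 : y₂ + y₃ ∈ coeffIdeal (𝔫 ^ k) := by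
      have : y₂ + y₃ = (y₁ + y₂ + y₃) - y₁ := by ring
      rw [this]
      exact (coeffIdeal _).sub_mem h hy₁
    have hy₃ : y₃ ∈ coeffIdeal (𝔫 ^ k) := by
      intro n
      by_cases hn : ∀ j ∈ sp.G, n ≠ -(j : ℤ)
      · rw [h₃.2 n hn]; exact (𝔫 ^ k).zero_mem
      · push Not at hn
        obtain ⟨j, hj, rfl⟩ := hn
        have := h23 (-(j : ℤ))
        rwa [HahnSeries.coeff_add, h₂.2 _ (by omega), zero_add] at this
    refine ⟨hy₁, ?_, hy₃⟩
    have : y₂ = (y₂ + y₃) - y₃ := by ring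
    rw [this]
    exact (coeffIdeal _).sub_mem h23 hy₃

end RRSplitting

end Fermat.Agent.S19.H855
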