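/-
A3 / S19, route U, piece U0 (helper855): approximate coordinates `ζ` of Laurent units.

For a Riemann–Roch splitting `sp` of `S((t))`, an ideal `𝔫 ⊆ S` and `k ≥ 1`:
`sp.IsZeta 𝔫 k u ζ`  means  `u ≡ (1 + x₁)(1 + x₂) ∏_{j ∈ G} (1 + ζ_j t^{-j})  mod 𝔫^k`
with `x₁ ∈ 𝔫 B`, `x₂ ∈ 𝔫 t S[[t]]`, `ζ_j ∈ 𝔫`.

* `isZeta_exists`   : every `u ≡ 1 mod 𝔫` has coordinates modulo `𝔫^k`;
* `isZeta_unique`   : they are unique modulo `𝔫^k` (and only depend on `u` modulo `𝔫^k`);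
* `IsZeta.mul`      : `ζ(u u') = ζ(u) ⊕ ζ(u')`, where `x ⊕ y := ζ(∏(1 + x_j t^{-j}) ∏(1 + y_j t^{-j}))`;
* `isZeta_zero_iff` : `ζ(u) = 0` iff `u ∈ (1 + 𝔫B)(1 + 𝔫 t S[[t]])` modulo `𝔫^k`.
-/
import Fermat.Agent.S19.H855.Factor

set_option autoImplicit false

open HahnSeries

namespace Fermat.Agent.S19.H855

section RingLemmas

variable {A : Type*} [CommRing A] {ι : Type*} [DecidableEq ι]

theorem prod_one_add_sub_prod_mem (I : Ideal A) (s : Finset ι) (a a' : ι → A)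
    (h : ∀ i ∈ s, a i - a' i ∈ I) : ∏ i ∈ s, (1 + a i) - ∏ i ∈ s, (1 + a' i) ∈ I := by
  induction s using Finset.induction_on with
  | empty => simp
  | insert j s hj ih =>
    rw [Finset.prod_insert hj, Finset.prod_insert hj]
    have e : (1 + a j) * ∏ i ∈ s, (1 + a i) - (1 + a' j) * ∏ i ∈ s, (1 + a' i)
        = (a j - a' j) * ∏ i ∈ s, (1 + a i)
          + (1 + a' j) * (∏ i ∈ s, (1 + a i) - ∏ i ∈ s, (1 + a' i)) := by ring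
    rw [e]
    exact I.add_mem (I.mul_mem_right _ (h j (Finset.mem_insert_self j s)))
      (I.mul_mem_left _ (ih fun i hi => h i (Finset.mem_insert_of_mem hi)))

end RingLemmas

variable {S : Type*} [CommRing S]

theorem zprod_sub_zprod_mem (G : Finset ℕ) (c c' : ℕ → S) (I : Ideal S)
    (h : ∀ j ∈ G, c j - c' j ∈ I) : zprod G c - zprod G c' ∈ coeffIdeal I := by
  unfold zprod
  refine prod_one_add_sub_prod_mem _ _ _ _ fun j hj => ?_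
  rw [← HahnSeries.single_sub]
  exact single_mem_coeffIdeal (h j hj) _

theorem zprod_congr (G : Finset ℕ) {c c' : ℕ → S} (h : ∀ j ∈ G, c j = c' j) :
    zprod G c = zprod G c' := by
  unfold zprod
  exact Finset.prod_congr rfl fun j hj => by rw [h j hj]

theorem zprod_zero (G : Finset ℕ) : zprod G (fun _ => (0 : S)) = 1 := by
  unfold zprod
  simp

namespace RRSplitting

variable (sp : RRSplitting S) (𝔫 : Ideal S)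

theorem zfun_gsum (c : ℕ → S) : sp.zfun (gsum sp.G c) = zprod sp.G c := by
  unfold zfun
  exact zprod_congr _ fun j hj => coeff_gsum_neg_of_mem _ _ hj

theorem factorData_val (x₁ x₂ : LaurentSeries S) (c : ℕ → S) :
    (sp.factorData 𝔫).val x₁ x₂ (gsum sp.G c) = (1 + x₁) * (1 + x₂) * zprod sp.G c := by
  unfold FactorData.val
  show (1 + x₁) * (1 + x₂) * sp.zfun (gsum sp.G c) = _
  rw [zfun_gsum]

/-- `ζ` is a system of coordinates of `u` modulo `𝔫 ^ k`. -/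
def IsZeta (k : ℕ) (u : LaurentSeries S) (ζ : ℕ → S) : Prop :=
  (∀ j ∈ sp.G, ζ j ∈ 𝔫) ∧ ∃ x₁ ∈ sp.X1 𝔫, ∃ x₂ ∈ X2 𝔫,
    u - (1 + x₁) * (1 + x₂) * zprod sp.G ζ ∈ coeffIdeal (𝔫 ^ k)

variable {sp 𝔫}

theorem isZeta_exists {k : ℕ} (hk : 1 ≤ k) {u : LaurentSeries S} (hu : u - 1 ∈ coeffIdeal 𝔫) :
    ∃ ζ, sp.IsZeta 𝔫 k u ζ := by
  have hu' : u - 1 ∈ (sp.factorData 𝔫).J 1 := by
    show u - 1 ∈ coeffIdeal (𝔫 ^ 1)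
    rwa [pow_one]
  obtain ⟨x₁, h₁, x₂, h₂, x₃, h₃, h⟩ := (sp.factorData 𝔫).approx_exists k hk u hu'
  have h₃' : x₃ ∈ sp.X3 𝔫 := h₃
  refine ⟨fun j => x₃.coeff (-(j : ℤ)), fun j _ => h₃'.1 _, x₁, h₁, x₂, h₂, ?_⟩
  rw [← factorData_val sp 𝔫, ← eq_gsum_of_mem_X3 h₃']
  exact h

theorem isZeta_unique {k : ℕ} (hk : 1 ≤ k) {u u' : LaurentSeries S} {ζ ζ' : ℕ → S}
    (huu' : u - u' ∈ coeffIdeal (𝔫 ^ k))
    (h : sp.IsZeta 𝔫 k u ζ) (h' : sp.IsZeta 𝔫 k u' ζ') : ∀ j ∈ sp.G, ζ j - ζ' j ∈ 𝔫 ^ k := by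
  obtain ⟨hζ, x₁, h₁, x₂, h₂, hx⟩ := h
  obtain ⟨hζ', y₁, h₁', y₂, h₂', hy⟩ := h'
  have hd : (sp.factorData 𝔫).val x₁ x₂ (gsum sp.G ζ)
      - (sp.factorData 𝔫).val y₁ y₂ (gsum sp.G ζ') ∈ (sp.factorData 𝔫).J k := by
    rw [factorData_val, factorData_val]
    have e : (1 + x₁) * (1 + x₂) * zprod sp.G ζ - (1 + y₁) * (1 + y₂) * zprod sp.G ζ'
        = (u - u') - (u - (1 + x₁) * (1 + x₂) * zprod sp.G ζ)
          + (u' - (1 + y₁) * (1 + y₂) * zprod sp.G ζ') := by ring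
    rw [e]
    exact (coeffIdeal _).add_mem ((coeffIdeal _).sub_mem huu' hx) hy
  have := (sp.factorData 𝔫).approx_unique k hk (x₁ := y₁) (x₂ := y₂) (x₃ := gsum sp.G ζ')
    (y₁ := x₁) (y₂ := x₂) (y₃ := gsum sp.G ζ) h₁' h₂' (gsum_mem_X3 _ hζ') h₁ h₂
    (gsum_mem_X3 _ hζ) hd
  intro j hj
  have h3 := this.2.2 (-(j : ℤ))
  rwa [HahnSeries.coeff_sub, coeff_gsum_neg_of_mem _ _ hj, coeff_gsum_neg_of_mem _ _ hj] at h3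

theorem IsZeta.congr_left {k : ℕ} {u u' : LaurentSeries S} {ζ : ℕ → S}
    (h : sp.IsZeta 𝔫 k u ζ) (huu' : u - u' ∈ coeffIdeal (𝔫 ^ k)) : sp.IsZeta 𝔫 k u' ζ := by
  obtain ⟨hζ, x₁, h₁, x₂, h₂, hx⟩ := h
  refine ⟨hζ, x₁, h₁, x₂, h₂, ?_⟩
  have e : u' - (1 + x₁) * (1 + x₂) * zprod sp.G ζ
      = (u - (1 + x₁) * (1 + x₂) * zprod sp.G ζ) - (u - u') := by ring
  rw [e]
  exact (coeffIdeal _).sub_mem hx huu'

theorem IsZeta.congr_right {k : ℕ} {u : LaurentSeries S} {ζ ζ' : ℕ → S}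
    (h : sp.IsZeta 𝔫 k u ζ) (hζ' : ∀ j ∈ sp.G, ζ' j ∈ 𝔫)
    (hζζ' : ∀ j ∈ sp.G, ζ j - ζ' j ∈ 𝔫 ^ k) : sp.IsZeta 𝔫 k u ζ' := by
  obtain ⟨-, x₁, h₁, x₂, h₂, hx⟩ := h
  refine ⟨hζ', x₁, h₁, x₂, h₂, ?_⟩
  have e : u - (1 + x₁) * (1 + x₂) * zprod sp.G ζ'
      = (u - (1 + x₁) * (1 + x₂) * zprod sp.G ζ)
        + (1 + x₁) * (1 + x₂) * (zprod sp.G ζ - zprod sp.G ζ') := by ring
  rw [e]
  exact (coeffIdeal _).add_mem hx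
    ((coeffIdeal _).mul_mem_left _ (zprod_sub_zprod_mem _ _ _ _ hζζ'))

theorem IsZeta.mono {k k' : ℕ} (hkk' : k' ≤ k) {u : LaurentSeries S} {ζ : ℕ → S}
    (h : sp.IsZeta 𝔫 k u ζ) : sp.IsZeta 𝔫 k' u ζ := by
  obtain ⟨hζ, x₁, h₁, x₂, h₂, hx⟩ := h
  exact ⟨hζ, x₁, h₁, x₂, h₂, coeffIdeal_mono (Ideal.pow_le_pow_right hkk') hx⟩

/-- `(1 + x₁)(1 + x₂)` has coordinates `0`. -/
theorem isZeta_of_mem (k : ℕ) {x₁ x₂ : LaurentSeries S} (h₁ : x₁ ∈ sp.X1 𝔫) (h₂ : x₂ ∈ X2 𝔫) :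
    sp.IsZeta 𝔫 k ((1 + x₁) * (1 + x₂)) (fun _ => 0) := by
  refine ⟨fun _ _ => 𝔫.zero_mem, x₁, h₁, x₂, h₂, ?_⟩
  rw [zprod_zero, mul_one, sub_self]
  exact (coeffIdeal _).zero_mem

theorem isZeta_one (k : ℕ) : sp.IsZeta 𝔫 k 1 (fun _ => 0) := by
  have := isZeta_of_mem (sp := sp) (𝔫 := 𝔫) k (sp.X1 𝔫).zero_mem (X2 𝔫).zero_mem
  simpa using this

/-- `∏ (1 + ζ_j t^{-j})` has coordinates `ζ`. -/
theorem isZeta_zprod (k : ℕ) {ζ : ℕ → S} (hζ : ∀ j ∈ sp.G, ζ j ∈ 𝔫) :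
    sp.IsZeta 𝔫 k (zprod sp.G ζ) ζ := by
  refine ⟨hζ, 0, (sp.X1 𝔫).zero_mem, 0, (X2 𝔫).zero_mem, ?_⟩
  simp only [add_zero, one_mul, sub_self]
  exact (coeffIdeal _).zero_mem

theorem X1_comp {x y : LaurentSeries S} (hx : x ∈ sp.X1 𝔫) (hy : y ∈ sp.X1 𝔫) :
    x + y + x * y ∈ sp.X1 𝔫 :=
  (sp.factorData 𝔫).X₁_comp hx hy

theorem X2_comp {x y : LaurentSeries S} (hx : x ∈ X2 𝔫) (hy : y ∈ X2 𝔫) :
    x + y + x * y ∈ X2 𝔫 :=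
  (X2 𝔫).add_mem ((X2 𝔫).add_mem hx hy)
    ⟨(coeffIdeal 𝔫).mul_mem_left _ hy.1, fun _ hn => coeff_mul_eq_zero_of_nonpos hx.2 hy.2 hn⟩

/-- Multiplicativity: the coordinates of `u u'` are the "sum" `ξ` of those of `u` and `u'`,
where the sum of `ζ` and `ζ'` is defined as the coordinates of `zprod ζ * zprod ζ'`. -/
theorem IsZeta.mul {k : ℕ} {u u' : LaurentSeries S} {ζ ζ' ξ : ℕ → S}
    (h : sp.IsZeta 𝔫 k u ζ) (h' : sp.IsZeta 𝔫 k u' ζ')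
    (hξ : sp.IsZeta 𝔫 k (zprod sp.G ζ * zprod sp.G ζ') ξ) : sp.IsZeta 𝔫 k (u * u') ξ := by
  obtain ⟨-, x₁, h₁, x₂, h₂, hx⟩ := h
  obtain ⟨-, y₁, h₁', y₂, h₂', hy⟩ := h'
  obtain ⟨hξ', w₁, hw₁, w₂, hw₂, hw⟩ := hξ
  refine ⟨hξ', (x₁ + y₁ + x₁ * y₁) + w₁ + (x₁ + y₁ + x₁ * y₁) * w₁,
    X1_comp (X1_comp h₁ h₁') hw₁,
    (x₂ + y₂ + x₂ * y₂) + w₂ + (x₂ + y₂ + x₂ * y₂) * w₂, X2_comp (X2_comp h₂ h₂') hw₂, ?_⟩
  set ex := u - (1 + x₁) * (1 + x₂) * zprod sp.G ζ with hex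
  set ey := u' - (1 + y₁) * (1 + y₂) * zprod sp.G ζ' with hey
  set ew := zprod sp.G ζ * zprod sp.G ζ' - (1 + w₁) * (1 + w₂) * zprod sp.G ξ with hew
  have e : u * u' - (1 + ((x₁ + y₁ + x₁ * y₁) + w₁ + (x₁ + y₁ + x₁ * y₁) * w₁))
        * (1 + ((x₂ + y₂ + x₂ * y₂) + w₂ + (x₂ + y₂ + x₂ * y₂) * w₂)) * zprod sp.G ξ
      = ex * u' + (1 + x₁) * (1 + x₂) * zprod sp.G ζ * ey
        + (1 + x₁) * (1 + x₂) * (1 + y₁) * (1 + y₂) * ew := by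
    rw [hex, hey, hew]; ring
  rw [e]
  exact (coeffIdeal _).add_mem ((coeffIdeal _).add_mem ((coeffIdeal _).mul_mem_right _ hx)
    ((coeffIdeal _).mul_mem_left _ hy)) ((coeffIdeal _).mul_mem_left _ hw)

/-- The kernel: coordinates `0` means `u ∈ (1 + 𝔫B)(1 + 𝔫 t S[[t]])` modulo `𝔫 ^ k`. -/
theorem isZeta_zero_iff {k : ℕ} {u : LaurentSeries S} :
    sp.IsZeta 𝔫 k u (fun _ => 0) ↔ ∃ x₁ ∈ sp.X1 𝔫, ∃ x₂ ∈ X2 𝔫,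
      u - (1 + x₁) * (1 + x₂) ∈ coeffIdeal (𝔫 ^ k) := by
  constructor
  · rintro ⟨-, x₁, h₁, x₂, h₂, hx⟩
    rw [zprod_zero, mul_one] at hx
    exact ⟨x₁, h₁, x₂, h₂, hx⟩
  · rintro ⟨x₁, h₁, x₂, h₂, hx⟩
    refine ⟨fun _ _ => 𝔫.zero_mem, x₁, h₁, x₂, h₂, ?_⟩
    rwa [zprod_zero, mul_one]

end RRSplitting

end Fermat.Agent.S19.H855
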