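/-
A3 / S19, route U, piece U0 (helper855): functoriality of the coordinates `ζ` and the
universal addition polynomials.

* `RRSplitting.map`      : base change of a Riemann–Roch splitting along a ring hom;
* `RRSplitting.IsZeta.map` : coordinates are compatible with base change;
* `RRSplitting.exists_addPoly` : for every `k` there are polynomials `Φ_j` over the base ring
  such that `ζ(∏(1 + x_j t^{-j}) ∏(1 + y_j t^{-j})) ≡ Φ(x, y) mod 𝔫^k` for ALL rings `S`, ideals `𝔫`
  and `x, y ∈ 𝔫^G`: the formal group law of the splitting, modulo degree `k`.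
-/
import Fermat.Agent.S19.H855.Zeta
import Fermat.Prelude.Def_ModularCurve_LaurentCoeff

set_option autoImplicit false

open HahnSeries
open ModularCurve (coeffMap coeffMap_coeff coeffMap_single coeffMap_coeffMap)

namespace Fermat.Agent.S19.H855

variable {S S' : Type*} [CommRing S] [CommRing S'] (φ : S →+* S')

theorem coeffMap_smul' (s : S) (x : LaurentSeries S) :
    coeffMap φ (s • x) = φ s • coeffMap φ x := by
  ext n
  simp [HahnSeries.coeff_smul]

theorem cB_coeffMap (G : Finset ℕ) (x : LaurentSeries S) (n : ℕ) :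
    cB G (coeffMap φ x) n = φ (cB G x n) := by
  rw [cB_apply, cB_apply, coeffMap_coeff]
  split_ifs <;> simp

theorem projB_eq_sum_range (G : Finset ℕ) (b : ℕ → LaurentSeries S) (x : LaurentSeries S)
    (N : ℕ) (hN : ∀ n, N ≤ n → cB G x n = 0) :
    projB G b x = ∑ n ∈ Finset.range N, (cB G x n) • b n := by
  rw [projB_apply]
  refine Finset.sum_subset (fun n hn => ?_) (fun n _ hn => ?_)
  · rw [Finset.mem_range]
    by_contra h
    exact (Finsupp.mem_support_iff.mp hn) (hN n (not_lt.mp h))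
  · rw [Finsupp.notMem_support_iff.mp hn, zero_smul]

theorem cB_eq_zero_of_negBound_le (G : Finset ℕ) (x : LaurentSeries S) {n : ℕ}
    (h : negBound x ≤ n) : cB G x n = 0 := by
  rw [cB_apply, coeff_neg_eq_zero_of_negBound_le x h]
  simp

theorem projB_coeffMap (G : Finset ℕ) (b : ℕ → LaurentSeries S) (x : LaurentSeries S) :
    projB G (fun n => coeffMap φ (b n)) (coeffMap φ x) = coeffMap φ (projB G b x) := by
  rw [projB_eq_sum_range G b x (negBound x) fun n hn => cB_eq_zero_of_negBound_le G x hn,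
    projB_eq_sum_range G _ (coeffMap φ x) (negBound x) fun n hn => by
      rw [cB_coeffMap, cB_eq_zero_of_negBound_le G x hn, map_zero],
    map_sum]
  refine Finset.sum_congr rfl fun n _ => ?_
  rw [coeffMap_smul', cB_coeffMap]

theorem coeffMap_mem_coeffIdeal {I : Ideal S} {I' : Ideal S'} (h : ∀ s ∈ I, φ s ∈ I')
    {x : LaurentSeries S} (hx : x ∈ coeffIdeal I) : coeffMap φ x ∈ coeffIdeal I' :=
  fun n => h _ (hx n)

theorem map_pow_mem {𝔫 : Ideal S} {𝔫' : Ideal S'} (h : ∀ s ∈ 𝔫, φ s ∈ 𝔫') (k : ℕ) :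
    ∀ s ∈ 𝔫 ^ k, φ s ∈ 𝔫' ^ k := by
  intro s hs
  have h1 : Ideal.map φ 𝔫 ≤ 𝔫' := Ideal.map_le_iff_le_comap.mpr fun s hs => h s hs
  have h2 : φ s ∈ Ideal.map φ (𝔫 ^ k) := Ideal.mem_map_of_mem φ hs
  rw [Ideal.map_pow] at h2
  exact Ideal.pow_right_mono h1 k h2

theorem coeffMap_zprod (G : Finset ℕ) (c : ℕ → S) :
    coeffMap φ (zprod G c) = zprod G fun j => φ (c j) := by
  unfold zprod
  rw [map_prod]
  refine Finset.prod_congr rfl fun j _ => ?_
  rw [map_add, map_one, coeffMap_single]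

namespace RRSplitting

/-- Base change of a Riemann–Roch splitting. -/
noncomputable def map (sp : RRSplitting S) : RRSplitting S' where
  G := sp.G
  zero_notMem := sp.zero_notMem
  b n := coeffMap φ (sp.b n)
  b_zero := by rw [sp.b_zero, map_one]
  coeff_b n hn m hm := by
    rw [coeffMap_coeff, sp.coeff_b n hn m hm]
    split_ifs <;> simp
  mul_b n hn m hm := by
    rw [← map_mul, projB_coeffMap, sp.mul_b n hn m hm]

@[simp] theorem map_G (sp : RRSplitting S) : (sp.map φ).G = sp.G := rfl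

@[simp] theorem map_b (sp : RRSplitting S) (n : ℕ) : (sp.map φ).b n = coeffMap φ (sp.b n) := rfl

theorem ext' {sp sp' : RRSplitting S} (hG : sp.G = sp'.G) (hb : sp.b = sp'.b) : sp = sp' := by
  cases sp
  cases sp'
  simp only at hG hb
  subst hG hb
  rfl

theorem map_map {S'' : Type*} [CommRing S''] (ψ : S' →+* S'') (sp : RRSplitting S) :
    (sp.map φ).map ψ = sp.map (ψ.comp φ) := by
  refine ext' rfl ?_
  funext n
  show coeffMap ψ (coeffMap φ (sp.b n)) = coeffMap (ψ.comp φ) (sp.b n)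
  rw [coeffMap_coeffMap]

variable {φ} {sp : RRSplitting S} {𝔫 : Ideal S} {𝔫' : Ideal S'}

theorem map_mem_X1 (h : ∀ s ∈ 𝔫, φ s ∈ 𝔫') {x : LaurentSeries S} (hx : x ∈ sp.X1 𝔫) :
    coeffMap φ x ∈ (sp.map φ).X1 𝔫' := by
  refine ⟨?_, coeffMap_mem_coeffIdeal φ h hx.2⟩
  show projB sp.G (fun n => coeffMap φ (sp.b n)) (coeffMap φ x) = coeffMap φ x
  rw [projB_coeffMap, hx.1]

theorem map_mem_X2 (h : ∀ s ∈ 𝔫, φ s ∈ 𝔫') {x : LaurentSeries S} (hx : x ∈ X2 𝔫) :
    coeffMap φ x ∈ X2 𝔫' :=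
  ⟨coeffMap_mem_coeffIdeal φ h hx.1, fun n hn => by rw [coeffMap_coeff, hx.2 n hn, map_zero]⟩

/-- Coordinates are compatible with base change. -/
theorem IsZeta.map {k : ℕ} {u : LaurentSeries S} {ζ : ℕ → S} (hz : sp.IsZeta 𝔫 k u ζ)
    (h : ∀ s ∈ 𝔫, φ s ∈ 𝔫') : (sp.map φ).IsZeta 𝔫' k (coeffMap φ u) (fun j => φ (ζ j)) := by
  obtain ⟨hζ, x₁, h₁, x₂, h₂, hx⟩ := hz
  refine ⟨fun j hj => h _ (hζ j hj), coeffMap φ x₁, map_mem_X1 h h₁, coeffMap φ x₂,
    map_mem_X2 h h₂, ?_⟩
  have := coeffMap_mem_coeffIdeal φ (map_pow_mem φ h k) hx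
  rw [map_sub, map_mul, map_mul, map_add, map_add, map_one, coeffMap_zprod] at this
  exact this

end RRSplitting

end Fermat.Agent.S19.H855
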