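/-
A3 / S19, route U, piece U0 (helper855): the universal addition polynomials
(= the formal group law of a Riemann–Roch splitting, modulo degree `k`).
-/
import Fermat.Agent.S19.H855.Functorial
import Mathlib.Algebra.MvPolynomial.Eval

set_option autoImplicit false

open HahnSeries
open ModularCurve (coeffMap coeffMap_coeff coeffMap_single coeffMap_coeffMap)

universe u v

namespace Fermat.Agent.S19.H855

namespace RRSplitting

variable {S₀ : Type u} [CommRing S₀]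

/-- The ideal of the universal ring generated by the variables indexed by `G`. -/
noncomputable def varIdeal (G : Finset ℕ) : Ideal (MvPolynomial (ℕ ⊕ ℕ) S₀) :=
  Ideal.span ((fun j => MvPolynomial.X (Sum.inl j)) '' (G : Set ℕ) ∪
    (fun j => MvPolynomial.X (Sum.inr j)) '' (G : Set ℕ))

theorem X_inl_mem_varIdeal {G : Finset ℕ} {j : ℕ} (hj : j ∈ G) :
    (MvPolynomial.X (Sum.inl j) : MvPolynomial (ℕ ⊕ ℕ) S₀) ∈ varIdeal G :=
  Ideal.subset_span (Or.inl ⟨j, hj, rfl⟩)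

theorem X_inr_mem_varIdeal {G : Finset ℕ} {j : ℕ} (hj : j ∈ G) :
    (MvPolynomial.X (Sum.inr j) : MvPolynomial (ℕ ⊕ ℕ) S₀) ∈ varIdeal G :=
  Ideal.subset_span (Or.inr ⟨j, hj, rfl⟩)

theorem zprod_sub_one_mem {S : Type v} [CommRing S] (G : Finset ℕ) (c : ℕ → S) (I : Ideal S)
    (h : ∀ j ∈ G, c j ∈ I) : zprod G c - 1 ∈ coeffIdeal I :=
  prod_one_add_sub_one_mem _ _ _ fun j hj => single_mem_coeffIdeal (h j hj) _

/-- **Universal addition polynomials.**  For every `k ≥ 1` there are polynomials `Φ j` over the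
base ring, in the variables `x_i` (`Sum.inl i`) and `y_i` (`Sum.inr i`), such that for every ring
`S` over the base ring, every ideal `𝔫` and all `x, y : G → 𝔫` the product
`∏ (1 + x_j t^{-j}) * ∏ (1 + y_j t^{-j})` has coordinates `Φ(x, y)` modulo `𝔫 ^ k`. -/
theorem exists_addPoly (sp : RRSplitting S₀) {k : ℕ} (hk : 1 ≤ k) :
    ∃ Φ : ℕ → MvPolynomial (ℕ ⊕ ℕ) S₀,
      ∀ {S : Type v} [CommRing S] (φ : S₀ →+* S) (𝔫 : Ideal S) (x y : ℕ → S),
        (∀ j ∈ sp.G, x j ∈ 𝔫) → (∀ j ∈ sp.G, y j ∈ 𝔫) →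
        (sp.map φ).IsZeta 𝔫 k (zprod sp.G x * zprod sp.G y)
          (fun j => MvPolynomial.eval₂ φ (Sum.elim x y) (Φ j)) := by
  set P := MvPolynomial (ℕ ⊕ ℕ) S₀
  set Xl : ℕ → P := fun j => MvPolynomial.X (Sum.inl j) with hXl
  set Xr : ℕ → P := fun j => MvPolynomial.X (Sum.inr j) with hXr
  set U : LaurentSeries P := zprod sp.G Xl * zprod sp.G Xr with hU
  have hl : zprod sp.G Xl - 1 ∈ coeffIdeal (varIdeal sp.G) :=
    zprod_sub_one_mem _ _ _ fun j hj => X_inl_mem_varIdeal hj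
  have hr : zprod sp.G Xr - 1 ∈ coeffIdeal (varIdeal sp.G) :=
    zprod_sub_one_mem _ _ _ fun j hj => X_inr_mem_varIdeal hj
  have hu : U - 1 ∈ coeffIdeal (varIdeal sp.G) := by
    have e : U - 1 = (zprod sp.G Xl - 1) * zprod sp.G Xr + (zprod sp.G Xr - 1) := by
      rw [hU]; ring
    rw [e]
    exact (coeffIdeal _).add_mem ((coeffIdeal _).mul_mem_right _ hl) hr
  obtain ⟨ζ, hζ⟩ := isZeta_exists (sp := sp.map (MvPolynomial.C : S₀ →+* P)) hk hu
  refine ⟨ζ, ?_⟩
  intro S _ φ 𝔫 x y hx hy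
  set ψ : P →+* S := MvPolynomial.eval₂Hom φ (Sum.elim x y) with hψ
  have hψn : ∀ s ∈ varIdeal sp.G, ψ s ∈ 𝔫 := by
    intro s hs
    have hle : varIdeal sp.G ≤ Ideal.comap ψ 𝔫 := by
      refine Ideal.span_le.mpr ?_
      rintro p (⟨j, hj, rfl⟩ | ⟨j, hj, rfl⟩)
      · show ψ (MvPolynomial.X (Sum.inl j)) ∈ 𝔫
        rw [hψ, MvPolynomial.coe_eval₂Hom, MvPolynomial.eval₂_X]
        exact hx j hj
      · show ψ (MvPolynomial.X (Sum.inr j)) ∈ 𝔫
        rw [hψ, MvPolynomial.coe_eval₂Hom, MvPolynomial.eval₂_X]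
        exact hy j hj
    exact hle hs
  have h := hζ.map (φ := ψ) (𝔫' := 𝔫) hψn
  have hcomp : ψ.comp (MvPolynomial.C : S₀ →+* P) = φ := by
    ext s
    rw [RingHom.comp_apply, hψ, MvPolynomial.coe_eval₂Hom, MvPolynomial.eval₂_C]
  rw [map_map, hcomp] at h
  have hUmap : coeffMap ψ U = zprod sp.G x * zprod sp.G y := by
    rw [hU, map_mul, coeffMap_zprod, coeffMap_zprod]
    congr 1
    · refine zprod_congr _ fun j _ => ?_
      show ψ (MvPolynomial.X (Sum.inl j)) = x j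
      rw [hψ, MvPolynomial.coe_eval₂Hom, MvPolynomial.eval₂_X]
      rfl
    · refine zprod_congr _ fun j _ => ?_
      show ψ (MvPolynomial.X (Sum.inr j)) = y j
      rw [hψ, MvPolynomial.coe_eval₂Hom, MvPolynomial.eval₂_X]
      rfl
  rw [hUmap] at h
  exact h

end RRSplitting

end Fermat.Agent.S19.H855
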