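/-
A3 / S19, route U, piece U0 (helper855): the ideal of Laurent series with coefficients in an ideal.
-/
import Mathlib.RingTheory.LaurentSeries
import Mathlib.RingTheory.Ideal.Operations
import Mathlib.Tactic

set_option autoImplicit false

open HahnSeries

namespace Fermat.Agent.S19.H855

variable {S : Type*} [CommRing S]

/-- Laurent series all of whose coefficients lie in the ideal `I`. -/
def coeffIdeal (I : Ideal S) : Ideal (LaurentSeries S) where
  carrier := {x | ∀ n, x.coeff n ∈ I}
  add_mem' := by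
    intro x y hx hy n
    rw [HahnSeries.coeff_add]
    exact I.add_mem (hx n) (hy n)
  zero_mem' := by
    intro n
    simp
  smul_mem' := by
    intro c x hx n
    rw [smul_eq_mul, HahnSeries.coeff_mul]
    exact I.sum_mem fun ij _ => I.mul_mem_left _ (hx _)

theorem mem_coeffIdeal {I : Ideal S} {x : LaurentSeries S} :
    x ∈ coeffIdeal I ↔ ∀ n, x.coeff n ∈ I :=
  Iff.rfl

theorem coeffIdeal_mono {I J : Ideal S} (h : I ≤ J) : coeffIdeal I ≤ coeffIdeal J :=
  fun _ hx n => h (hx n)

theorem mul_mem_coeffIdeal_mul {I J : Ideal S} {x y : LaurentSeries S}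
    (hx : x ∈ coeffIdeal I) (hy : y ∈ coeffIdeal J) : x * y ∈ coeffIdeal (I * J) := by
  intro n
  rw [HahnSeries.coeff_mul]
  exact (I * J).sum_mem fun ij _ => Ideal.mul_mem_mul (hx _) (hy _)

theorem coeffIdeal_bot : coeffIdeal (⊥ : Ideal S) = ⊥ := by
  ext x
  simp only [mem_coeffIdeal, Ideal.mem_bot]
  constructor
  · intro h
    ext n
    simpa using h n
  · rintro rfl n
    simp

theorem smul_mem_coeffIdeal {I : Ideal S} {s : S} (hs : s ∈ I) (x : LaurentSeries S) :
    s • x ∈ coeffIdeal I := by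
  intro n
  rw [HahnSeries.coeff_smul, smul_eq_mul]
  exact I.mul_mem_right _ hs

theorem single_mem_coeffIdeal {I : Ideal S} {s : S} (hs : s ∈ I) (a : ℤ) :
    (single a s : LaurentSeries S) ∈ coeffIdeal I := by
  intro n
  rw [HahnSeries.coeff_single]
  split_ifs
  · exact hs
  · exact I.zero_mem

theorem pow_mul_mem_coeffIdeal {𝔫 : Ideal S} {a b : ℕ} {x y : LaurentSeries S}
    (hx : x ∈ coeffIdeal (𝔫 ^ a)) (hy : y ∈ coeffIdeal (𝔫 ^ b)) :
    x * y ∈ coeffIdeal (𝔫 ^ (a + b)) := by
  rw [pow_add]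
  exact mul_mem_coeffIdeal_mul hx hy

end Fermat.Agent.S19.H855
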