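import Fermat.Agent.S19.Spec
import Fermat.Agent.A3.H799.GoodRed
import Fermat.Prelude.Def_ModularCurve_ReductionModL

/-!
# Cell A3 (S19) — node LOCAL: the glue  `GR + DISC ⟹ LocalStatement`   (helper855)

    S19.LocalStatement   <==   GrStatement (the `GoodRed` instance for `X₀(N)`, block GR)
                           +   A3.H799.LocalStatement (abstract LOCAL theorem, block DISC)

* `GrStatement` : for every good level there are a valuation ring `V | ℓ` of `Q̄` and a `GoodRed`
  datum for `F = modularFunctionFieldBar N` over `V` whose inertia group contains the image of the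
  inertia group of `V` under `arithmeticGalois`.  THIS is the exact target of block GR.
* `localStatement_of_gr` : the glue (no holes).
* `isAlgClosed_residueField` : the residue field of a valuation ring of an algebraically closed
  field is algebraically closed (so `k` needs no hypothesis).
* `rankOne_of_ell_mem` : every valuation ring of `Q̄` above `ℓ` has rank one in the form `harch`
  required by the abstract LOCAL theorem.
-/

set_option autoImplicit false

noncomputable section

open AlgebraicCurve ModularCurve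

namespace Fermat.Agent.S19.H855

open Fermat.Agent.S19

/-! ## The residue field of a valuation ring of an algebraically closed field -/

/-- A field which is a quotient of a valuation subring of an algebraically closed field is
algebraically closed. -/
theorem isAlgClosed_of_surjective {K : Type*} [Field K] [IsAlgClosed K] (V : ValuationSubring K)
    {k : Type*} [Field k] (res : V →+* k) (hres : Function.Surjective res) : IsAlgClosed k := by
  refine IsAlgClosed.of_exists_root _ ?_
  intro p hpm hirr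
  -- lift `p` to a monic polynomial over `V`
  obtain ⟨q, hq, hqdeg, hqm⟩ :=
    Polynomial.lifts_and_degree_eq_and_monic (f := res)
      ((Polynomial.mem_lifts p).mpr (Polynomial.map_surjective _ hres p)) hpm
  -- a root in `K`
  have hqK : ((q.map V.subtype).degree ≠ 0) := by
    rw [Polynomial.degree_map_eq_of_injective (Subtype.val_injective : Function.Injective V.subtype)]
    rw [hqdeg]
    intro h0
    have := Polynomial.degree_pos_of_irreducible hirr
    rw [h0] at this
    exact lt_irrefl _ this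
  obtain ⟨x, hx⟩ := IsAlgClosed.exists_root (q.map V.subtype) hqK
  -- the root is integral over `V`, hence in `V`
  have hint : IsIntegral V x := by
    refine ⟨q, hqm, ?_⟩
    rw [Polynomial.IsRoot.def, Polynomial.eval_map] at hx
    rw [← hx]
    rfl
  have hxV : x ∈ V := by
    have h := (IsIntegrallyClosed.isIntegral_iff (R := V) (K := K)).mp hint
    obtain ⟨y, hy⟩ := h
    rw [← hy]
    exact y.2
  refine ⟨res ⟨x, hxV⟩, ?_⟩
  rw [← hq, Polynomial.eval_map, Polynomial.eval₂_hom]
  have hz : Polynomial.eval (⟨x, hxV⟩ : V) q = 0 := by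
    apply Subtype.val_injective
    have h1 := hx
    rw [Polynomial.IsRoot.def, Polynomial.eval_map] at h1
    have h2 := Polynomial.eval₂_at_apply (p := q) V.subtype (⟨x, hxV⟩ : V)
    rw [show V.subtype (⟨x, hxV⟩ : V) = x from rfl, h1] at h2
    exact h2.symm
  rw [hz, map_zero]

/-- The residue field of a valuation subring of an algebraically closed field is algebraically
closed. -/
theorem isAlgClosed_residueField {K : Type*} [Field K] [IsAlgClosed K] (V : ValuationSubring K) :
    IsAlgClosed (IsLocalRing.ResidueField V) :=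
  isAlgClosed_of_surjective V (IsLocalRing.residue V) IsLocalRing.residue_surjective

/-! ## Valuation rings of `Q̄` above `ℓ` have rank one -/

section RankOne

/-- Every element of `Q̄` is algebraic over `ℤ`. -/
theorem isAlgebraic_int_Qb (x : Qb) : IsAlgebraic ℤ x := by
  have h : @IsAlgebraic ℚ (AlgebraicClosure ℚ) _ _ (AlgebraicClosure.instAlgebra ℚ) x :=
    (AlgebraicClosure.isAlgebraic ℚ).isAlgebraic x
  have h' : IsAlgebraic ℚ x := by
    convert h
    exact Subsingleton.elim _ _
  exact (IsFractionRing.isAlgebraic_iff ℤ ℚ Qb).mpr h'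

/-- Evaluation of an integral polynomial commutes with the inclusion `V ⊆ Q̄`. -/
theorem aeval_coe_eq_zero (V : ValuationSubring Qb) (a : V) (q : Polynomial ℤ)
    (hroot : Polynomial.aeval (a : Qb) q = 0) : Polynomial.aeval a q = 0 := by
  apply Subtype.val_injective
  have := Polynomial.aeval_algHom_apply ((Algebra.ofId V Qb).restrictScalars ℤ) a q
  rw [ZeroMemClass.coe_zero, ← hroot]
  exact this.symm

variable {ℓ : ℕ} [hℓ : Fact ℓ.Prime] (V : ValuationSubring Qb)

/-- An integer prime to `ℓ` is a unit of `V`. -/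
theorem isUnit_intCast_of_not_dvd (hV : (ℓ : Qb) ∈ V.nonunits) {c : ℤ} (hc : ¬ (ℓ : ℤ) ∣ c) :
    IsUnit ((c : V)) := by
  have hcop : IsCoprime c (ℓ : ℤ) := by
    have hp : Prime (ℓ : ℤ) := Nat.prime_iff_prime_int.mp hℓ.out
    exact ((hp.coprime_iff_not_dvd).mpr hc).symm
  obtain ⟨u, v, huv⟩ := hcop
  have hℓm : ((ℓ : ℤ) : V) ∈ IsLocalRing.maximalIdeal V := by
    rw [← ValuationSubring.coe_mem_nonunits_iff]
    simpa using hV
  have h1 : ((u : V)) * (c : V) + (v : V) * ((ℓ : ℤ) : V) = 1 := by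
    have := congrArg (fun z : ℤ => (z : V)) huv
    simpa using this
  have h2 : IsUnit ((u : V) * (c : V)) := by
    have h3 : IsUnit ((u : V) * (c : V) + (v : V) * ((ℓ : ℤ) : V)) := by rw [h1]; exact isUnit_one
    rcases IsLocalRing.isUnit_or_isUnit_of_isUnit_add h3 with h | h
    · exact h
    · exact absurd h ((IsLocalRing.mem_maximalIdeal _).mp
        (Ideal.mul_mem_left _ _ hℓm))
  exact isUnit_of_mul_isUnit_right h2

/-- Step 1: a power of every non-unit of `V` is divisible by `ℓ`. -/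
theorem exists_pow_mem_span_ell (hV : (ℓ : Qb) ∈ V.nonunits) (a : V)
    (ha : a ∈ IsLocalRing.maximalIdeal V) :
    ∃ n : ℕ, a ^ n ∈ Ideal.span {((ℓ : ℤ) : V)} := by
  classical
  -- an integral polynomial relation, primitive
  have halg : IsAlgebraic ℤ (a : Qb) := isAlgebraic_int_Qb _
  obtain ⟨p, hp0, hpa⟩ := halg
  have hprim : p.primPart.IsPrimitive := Polynomial.isPrimitive_primPart p
  have hroot : Polynomial.aeval (a : Qb) p.primPart = 0 :=
    Polynomial.aeval_primPart_eq_zero hp0 hpa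
  set q := p.primPart with hq
  have hex : ∃ i, ¬ (ℓ : ℤ) ∣ q.coeff i := by
    by_contra hcon
    have hcon' : ∀ i, (ℓ : ℤ) ∣ q.coeff i := fun i => by
      by_contra h
      exact hcon ⟨i, h⟩
    have h1 : Polynomial.C (ℓ : ℤ) ∣ q := (Polynomial.C_dvd_iff_dvd_coeff _ _).mpr hcon'
    have h2 := hprim _ h1
    have hp : Prime (ℓ : ℤ) := Nat.prime_iff_prime_int.mp hℓ.out
    exact hp.not_isUnit h2
  obtain ⟨i0, hi0c, hlt⟩ : ∃ i0, ¬ (ℓ : ℤ) ∣ q.coeff i0 ∧ ∀ i, i < i0 → (ℓ : ℤ) ∣ q.coeff i :=
    ⟨Nat.find hex, Nat.find_spec hex, fun i hi => by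
      by_contra h
      exact Nat.find_min hex hi h⟩
  -- the relation in `V`
  have hrel : ∑ i ∈ Finset.range (q.natDegree + 1), ((q.coeff i : ℤ) : V) * a ^ i = 0 := by
    have h1 := aeval_coe_eq_zero V a q hroot
    rw [Polynomial.aeval_eq_sum_range] at h1
    simpa [zsmul_eq_mul] using h1
  refine ⟨i0, ?_⟩
  set J : Ideal V := Ideal.span {((ℓ : ℤ) : V)} ⊔ Ideal.span {a ^ (i0 + 1)} with hJ
  have hterm : ∀ i, i ≠ i0 → ((q.coeff i : ℤ) : V) * a ^ i ∈ J := by
    intro i hi
    rcases lt_or_gt_of_ne hi with h | h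
    · obtain ⟨c, hc⟩ := hlt i h
      refine Ideal.mem_sup_left (Ideal.mem_span_singleton.mpr ?_)
      rw [hc]
      push_cast
      exact Dvd.dvd.mul_right (Dvd.intro _ rfl) _
    · refine Ideal.mem_sup_right (Ideal.mem_span_singleton.mpr ?_)
      exact Dvd.dvd.mul_left (pow_dvd_pow a h) _
  have hmain : ((q.coeff i0 : ℤ) : V) * a ^ i0 ∈ J := by
    by_cases hmem : i0 ∈ Finset.range (q.natDegree + 1)
    · rw [← Finset.add_sum_erase _ _ hmem] at hrel
      have h2 : ((q.coeff i0 : ℤ) : V) * a ^ i0 =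
          -∑ i ∈ (Finset.range (q.natDegree + 1)).erase i0, ((q.coeff i : ℤ) : V) * a ^ i :=
        eq_neg_of_add_eq_zero_left hrel
      rw [h2]
      refine J.neg_mem (J.sum_mem ?_)
      intro i hi
      exact hterm i (Finset.ne_of_mem_erase hi)
    · have h0 : q.coeff i0 = 0 := by
        apply Polynomial.coeff_eq_zero_of_natDegree_lt
        simpa [Finset.mem_range, Nat.lt_succ_iff, not_le] using hmem
      rw [h0]
      simp
  obtain ⟨y, hy, z, hz, hyz⟩ := Submodule.mem_sup.mp hmain
  obtain ⟨y', rfl⟩ := Ideal.mem_span_singleton'.mp hy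
  obtain ⟨z', rfl⟩ := Ideal.mem_span_singleton'.mp hz
  -- `a ^ i0 * (c - z' * a) = y' * ℓ`
  have hu : IsUnit (((q.coeff i0 : ℤ) : V) - z' * a) := by
    have hc := isUnit_intCast_of_not_dvd V hV hi0c
    have h3 : IsUnit ((((q.coeff i0 : ℤ) : V) - z' * a) + z' * a) := by
      rw [sub_add_cancel]; exact hc
    rcases IsLocalRing.isUnit_or_isUnit_of_isUnit_add h3 with h | h
    · exact h
    · exact absurd h ((IsLocalRing.mem_maximalIdeal _).mp (Ideal.mul_mem_left _ _ ha))
  obtain ⟨u, hu'⟩ := hu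
  have hkey : a ^ i0 * (u : V) = y' * ((ℓ : ℤ) : V) := by
    rw [hu']
    have : z' * a ^ (i0 + 1) = a ^ i0 * (z' * a) := by ring
    rw [this] at hyz
    linear_combination -hyz
  have hfin : a ^ i0 = (y' * ((u⁻¹ : Vˣ) : V)) * ((ℓ : ℤ) : V) := by
    have : a ^ i0 = a ^ i0 * (u : V) * ((u⁻¹ : Vˣ) : V) := by
      rw [mul_assoc, Units.mul_inv, mul_one]
    rw [this, hkey]
    ring
  rw [hfin]
  exact Ideal.mul_mem_left _ _ (Ideal.subset_span rfl)

/-- Step 2: a power of `ℓ` is divisible by every nonzero element of `V`. -/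
theorem exists_ell_pow_mem_span (hV : (ℓ : Qb) ∈ V.nonunits) (b : V) (hb : b ≠ 0) :
    ∃ m : ℕ, ((ℓ : ℤ) : V) ^ m ∈ Ideal.span {b} := by
  classical
  have hbK : (b : Qb) ≠ 0 := fun h => hb (Subtype.ext h)
  have halg : IsAlgebraic ℤ (b : Qb) := isAlgebraic_int_Qb _
  obtain ⟨p, hp0, hpb⟩ := halg
  obtain ⟨q, hpq, hXq⟩ := Polynomial.exists_eq_pow_rootMultiplicity_mul_and_not_dvd p hp0 0
  have hq0 : q.coeff 0 ≠ 0 := by
    intro h
    apply hXq
    rw [map_zero, sub_zero]
    exact Polynomial.X_dvd_iff.mpr h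
  have hqb : Polynomial.aeval (b : Qb) q = 0 := by
    rw [hpq, map_mul, map_pow, map_sub, Polynomial.aeval_X, Polynomial.aeval_C, map_zero,
      sub_zero] at hpb
    rcases mul_eq_zero.mp hpb with h | h
    · exact absurd (eq_zero_of_pow_eq_zero h) hbK
    · exact h
  -- in `V`
  have hqV : Polynomial.aeval b q = 0 := aeval_coe_eq_zero V b q hqb
  have hdiv : ((q.coeff 0 : ℤ) : V) ∈ Ideal.span {b} := by
    have h1 : q = q.divX * Polynomial.X + Polynomial.C (q.coeff 0) := (Polynomial.divX_mul_X_add q).symm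
    have h2 := congrArg (Polynomial.aeval b) h1
    rw [hqV, map_add, map_mul, Polynomial.aeval_X, Polynomial.aeval_C] at h2
    have h3 : ((q.coeff 0 : ℤ) : V) = -(Polynomial.aeval b q.divX) * b := by
      have : (algebraMap ℤ V) (q.coeff 0) = ((q.coeff 0 : ℤ) : V) := by simp
      rw [this] at h2
      linear_combination -h2
    rw [h3]
    exact Ideal.mul_mem_left _ _ (Ideal.subset_span rfl)
  -- split off the power of `ℓ`
  have hp : Prime (ℓ : ℤ) := Nat.prime_iff_prime_int.mp hℓ.out
  have hfin : FiniteMultiplicity (ℓ : ℤ) (q.coeff 0) :=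
    Int.finiteMultiplicity_iff.mpr ⟨by
      rw [Int.natAbs_natCast]; exact hℓ.out.one_lt.ne', hq0⟩
  obtain ⟨c, hc, hcℓ⟩ := hfin.exists_eq_pow_mul_and_not_dvd
  refine ⟨multiplicity (ℓ : ℤ) (q.coeff 0), ?_⟩
  obtain ⟨u, hu⟩ := isUnit_intCast_of_not_dvd V hV hcℓ
  have h4 : ((ℓ : ℤ) : V) ^ multiplicity (ℓ : ℤ) (q.coeff 0) =
      ((u⁻¹ : Vˣ) : V) * ((q.coeff 0 : ℤ) : V) := by
    conv_rhs => rw [hc]
    push_cast
    rw [← hu]
    rw [mul_comm (((ℓ : V)) ^ _), ← mul_assoc, Units.inv_mul, one_mul]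
  rw [h4]
  exact Ideal.mul_mem_left _ _ hdiv

/-- **Rank one**: every valuation ring of `Q̄` above `ℓ` satisfies the archimedean hypothesis of
the abstract LOCAL theorem. -/
theorem rankOne_of_ell_mem (hV : (ℓ : Qb) ∈ V.nonunits) (a b : Qb) (ha : a ∈ V.nonunits)
    (hb : b ≠ 0) : ∃ n : ℕ, a ^ n / b ∈ V := by
  have haV : a ∈ V := V.nonunits_subset ha
  by_cases hbV : b ∈ V
  · have ham : (⟨a, haV⟩ : V) ∈ IsLocalRing.maximalIdeal V := by
      rw [← ValuationSubring.coe_mem_nonunits_iff]; exact ha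
    obtain ⟨n, hn⟩ := exists_pow_mem_span_ell V hV ⟨a, haV⟩ ham
    obtain ⟨m, hm⟩ := exists_ell_pow_mem_span V hV ⟨b, hbV⟩ (fun h => hb (congrArg Subtype.val h))
    obtain ⟨y, hy⟩ := Ideal.mem_span_singleton'.mp hn
    obtain ⟨z, hz⟩ := Ideal.mem_span_singleton'.mp hm
    refine ⟨n * m, ?_⟩
    have h1 : a ^ n = (y : Qb) * (ℓ : Qb) := by
      have := congrArg Subtype.val hy
      simpa using this.symm
    have h2 : (ℓ : Qb) ^ m = (z : Qb) * b := by
      have := congrArg Subtype.val hz
      simpa using this.symm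
    have h3 : a ^ (n * m) / b = (y : Qb) ^ m * (z : Qb) := by
      rw [pow_mul, h1, mul_pow, h2]
      field_simp
    rw [h3]
    exact V.mul_mem _ _ (V.pow_mem y.2 m) z.2
  · refine ⟨0, ?_⟩
    rw [pow_zero, one_div]
    rcases V.mem_or_inv_mem b with h | h
    · exact absurd h hbV
    · exact h

end RankOne


/-! ## The glue -/

/-- **GR** — the exact target of block GOODRED-INST: at every good level there is a `GoodRed`
datum for the function field of `X₀(N)` over `Q̄`, at a valuation ring above `ℓ`, whose inertia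
group contains the image of the inertia group of that valuation ring. -/
def GrStatement : Prop :=
  ∀ (N : ℕ) [NeZero N] (ℓ : ℕ) [Fact ℓ.Prime], ¬ ℓ ∣ N → GoodLevel N ℓ →
    ∃ (k : Type) (_ : Field k)
      (𝓡 : A3.H799.GoodRed Qb (modularFunctionFieldBar N) k (modularFunctionFieldFullC k N)),
      (ℓ : Qb) ∈ 𝓡.V.nonunits ∧
      ∀ σ : GalQ, IsInertiaAt 𝓡.V σ →
        arithmeticGalois (modularFunctionFieldFull N) σ ∈ 𝓡.I

/-- **DISC** — the abstract LOCAL theorem for all function fields (universe `0`). -/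
def AbstractLocalStatement : Prop :=
  ∀ (K F k Fk : Type) [Field K] [Field F] [Algebra K F] [Field k] [Field Fk] [Algebra k Fk]
    [IsAlgClosed K] [IsAlgClosed k] [CharZero K], A3.H799.LocalStatement K F k Fk

/-- The torsion subgroup as an additive subgroup of `Pic0`. -/
def torsSub (N ℓ k : ℕ) : AddSubgroup (JZero N) :=
  (Submodule.torsionBy ℤ (JZero N) ((ℓ : ℤ) ^ k)).toAddSubgroup

/-- `Tors` and `torsSub` have the same elements. -/
def torsEquiv (N ℓ k : ℕ) : Tors N ℓ k ≃ torsSub N ℓ k where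
  toFun x := ⟨x.1, x.2⟩
  invFun y := ⟨y.1, y.2⟩
  left_inv _ := rfl
  right_inv _ := rfl

theorem torsEquiv_add (N ℓ k : ℕ) (x y : Tors N ℓ k) :
    torsEquiv N ℓ k (x + y) = torsEquiv N ℓ k x + torsEquiv N ℓ k y := rfl

theorem smul_mem_torsSub (N ℓ k : ℕ)
    (g : SemilinearAut Qb (modularFunctionFieldBar N)) (x : JZero N)
    (hx : x ∈ torsSub N ℓ k) : g • x ∈ torsSub N ℓ k := by
  have h : ((ℓ : ℤ) ^ k) • x = 0 := (Submodule.mem_torsionBy_iff _ _).mp hx
  show g • x ∈ (Submodule.torsionBy ℤ (JZero N) ((ℓ : ℤ) ^ k))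
  rw [Submodule.mem_torsionBy_iff, ← SemilinearAut.smul_zsmul, h]
  exact map_zero (DistribSMul.toAddMonoidHom (Pic0 Qb (modularFunctionFieldBar N)) g)

/-- **Glue**: `LocalStatement` of the S19 board from GR and the abstract LOCAL theorem. -/
theorem localStatement_of_gr (hgr : GrStatement) (hloc : AbstractLocalStatement) :
    LocalStatement := by
  intro N _ ℓ _ hℓN hg k hfin
  obtain ⟨kk, _, 𝓡, hℓV, hI⟩ := hgr N ℓ hℓN hg
  have : IsAlgClosed kk := isAlgClosed_of_surjective 𝓡.V 𝓡.res 𝓡.res_surjective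
  have : Finite (torsSub N ℓ k) := Finite.of_equiv _ (torsEquiv N ℓ k)
  obtain ⟨ι, hι, Ψ, hinj, hint, heq, hadd⟩ :=
    hloc Qb (modularFunctionFieldBar N) kk (modularFunctionFieldFullC kk N) 𝓡
      (rankOne_of_ell_mem 𝓡.V hℓV) (torsSub N ℓ k)
      (fun g _ x hx => smul_mem_torsSub N ℓ k g x hx)
  refine ⟨{ V := 𝓡.V
            ell_mem := hℓV
            ι := ι
            fin := hι
            Ψ := fun m i => Ψ (torsEquiv N ℓ k m) i
            inj := ?_
            integral := fun m i => hint _ i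
            equivariant := ?_
            add_mem := ?_ }⟩
  · intro m m' h
    exact (torsEquiv N ℓ k).injective (hinj h)
  · intro σ hσ m i
    exact heq (arithmeticGalois (modularFunctionFieldFull N) σ) (hI σ hσ) (torsEquiv N ℓ k m) i
  · intro i
    -- pull back along `torsEquiv × torsEquiv`
    let φ : (torsSub N ℓ k × torsSub N ℓ k → Qb) →ₐ[𝓡.V] (Tors N ℓ k × Tors N ℓ k → Qb) :=
      { toFun := fun F p => F (torsEquiv N ℓ k p.1, torsEquiv N ℓ k p.2)
        map_one' := rfl
        map_mul' := fun _ _ => rfl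
        map_zero' := rfl
        map_add' := fun _ _ => rfl
        commutes' := fun _ => rfl }
    have h1 : φ (fun p : torsSub N ℓ k × torsSub N ℓ k => Ψ (p.1 + p.2) i) ∈
        (Algebra.adjoin 𝓡.V ({f | ∃ j, f = fun p : torsSub N ℓ k × torsSub N ℓ k => Ψ p.1 j} ∪
          {f | ∃ j, f = fun p : torsSub N ℓ k × torsSub N ℓ k => Ψ p.2 j})).map φ :=
      ⟨_, hadd i, rfl⟩
    rw [AlgHom.map_adjoin] at h1
    refine Algebra.adjoin_mono ?_ h1
    rintro _ ⟨g, (⟨j, rfl⟩ | ⟨j, rfl⟩), rfl⟩
    · exact Or.inl ⟨j, rfl⟩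
    · exact Or.inr ⟨j, rfl⟩

end Fermat.Agent.S19.H855

end
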