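/-
A3 / S19, route U, piece U0 (helper855): Riemann–Roch splittings of the ring of Laurent series.

`RRSplitting S` : a finite "gap set" `G ⊂ ℕ_{>0}` and a family `b n ∈ S((t))` (`n ∉ G`) with
`b n ∈ t^{-n} + ∑_{j ∈ G} S t^{-j} + t S[[t]]`, whose span is closed under multiplication.
(Geometric source: `b n` = functions regular outside one point with pole of order `n` there, expanded in
a local parameter; `G` = Weierstrass gap set.)  Equivalently
`S((t)) = B ⊕ t S[[t]] ⊕ ⊕_{j ∈ G} S t^{-j}` with `B = span (b n)` a subring.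
-/
import Fermat.Agent.S19.H855.AbstractFactor
import Fermat.Agent.S19.H855.CoeffIdeal

set_option autoImplicit false

open HahnSeries

namespace Fermat.Agent.S19.H855

variable {S : Type*} [CommRing S]

/-- A bound for the pole order of a Laurent series. -/
noncomputable def negBound (x : LaurentSeries S) : ℕ := (-x.order).toNat + 1

theorem coeff_neg_eq_zero_of_negBound_le (x : LaurentSeries S) {n : ℕ} (h : negBound x ≤ n) :
    x.coeff (-(n : ℤ)) = 0 := by
  apply HahnSeries.coeff_eq_zero_of_lt_order
  unfold negBound at h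
  have := Int.self_le_toNat (-x.order)
  omega

theorem smul_mul_smul_laurent (a c : S) (u v : LaurentSeries S) :
    (a • u) * (c • v) = (a * c) • (u * v) := by
  rw [← HahnSeries.C_mul_eq_smul, ← HahnSeries.C_mul_eq_smul, ← HahnSeries.C_mul_eq_smul, map_mul]
  ring

section Raw

variable (G : Finset ℕ) (b : ℕ → LaurentSeries S)

/-- The coordinates of a Laurent series: its coefficients at `t^{-n}`, `n ∉ G`. -/
noncomputable def cB : LaurentSeries S →ₗ[S] (ℕ →₀ S) where
  toFun x := Finsupp.onFinset (Finset.range (negBound x))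
    (fun n => if n ∈ G then 0 else x.coeff (-(n : ℤ))) (by
      intro n hn
      rw [Finset.mem_range]
      by_contra hlt
      apply hn
      rw [coeff_neg_eq_zero_of_negBound_le x (not_lt.mp hlt)]
      simp)
  map_add' x y := by
    ext n
    simp only [Finsupp.onFinset_apply, Finsupp.add_apply, HahnSeries.coeff_add]
    split_ifs <;> simp
  map_smul' s x := by
    ext n
    simp only [Finsupp.onFinset_apply, Finsupp.smul_apply, HahnSeries.coeff_smul, RingHom.id_apply,
      smul_eq_mul]
    split_ifs <;> simp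

@[simp]
theorem cB_apply (x : LaurentSeries S) (n : ℕ) :
    cB G x n = if n ∈ G then 0 else x.coeff (-(n : ℤ)) :=
  rfl

/-- The projection onto the span of the `b n`. -/
noncomputable def projB : LaurentSeries S →ₗ[S] LaurentSeries S :=
  (Finsupp.linearCombination S b).comp (cB G)

theorem projB_apply (x : LaurentSeries S) :
    projB G b x = ∑ n ∈ (cB G x).support, (cB G x n) • b n := by
  unfold projB
  rw [LinearMap.comp_apply, Finsupp.linearCombination_apply, Finsupp.sum]

end Raw

/-- A Riemann–Roch splitting of `S((t))`. -/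
structure RRSplitting (S : Type*) [CommRing S] where
  /-- the gap set -/
  G : Finset ℕ
  zero_notMem : 0 ∉ G
  /-- the basis of the "affine part" -/
  b : ℕ → LaurentSeries S
  b_zero : b 0 = 1
  coeff_b : ∀ n, n ∉ G → ∀ m : ℕ, m ∉ G → (b n).coeff (-(m : ℤ)) = if m = n then 1 else 0
  mul_b : ∀ n, n ∉ G → ∀ m, m ∉ G → projB G b (b n * b m) = b n * b m

namespace RRSplitting

variable (sp : RRSplitting S)

/-- `x` lies in the span `B` of the `b n`. -/
def IsB (x : LaurentSeries S) : Prop := projB sp.G sp.b x = x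

theorem cB_linearCombination (c : ℕ →₀ S) (hc : ∀ n ∈ sp.G, c n = 0) :
    cB sp.G (Finsupp.linearCombination S sp.b c) = c := by
  ext m
  rw [cB_apply]
  by_cases hm : m ∈ sp.G
  · rw [if_pos hm, hc m hm]
  · rw [if_neg hm, Finsupp.linearCombination_apply, Finsupp.sum, HahnSeries.coeff_sum]
    have : ∀ n ∈ c.support, (c n • sp.b n).coeff (-(m : ℤ)) = if m = n then c n else 0 := by
      intro n hn
      have hnG : n ∉ sp.G := fun h => (Finsupp.mem_support_iff.mp hn) (hc n h)
      rw [HahnSeries.coeff_smul, sp.coeff_b n hnG m hm, smul_eq_mul]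
      split_ifs <;> simp
    rw [Finset.sum_congr rfl this, Finset.sum_ite_eq]
    split_ifs with h
    · rfl
    · exact (Finsupp.notMem_support_iff.mp h).symm

theorem cB_eq_zero_of_mem (x : LaurentSeries S) {n : ℕ} (hn : n ∈ sp.G) : cB sp.G x n = 0 := by
  rw [cB_apply, if_pos hn]

theorem cB_projB (x : LaurentSeries S) : cB sp.G (projB sp.G sp.b x) = cB sp.G x := by
  unfold projB
  rw [LinearMap.comp_apply]
  exact sp.cB_linearCombination _ fun n hn => sp.cB_eq_zero_of_mem x hn

theorem projB_projB (x : LaurentSeries S) :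
    projB sp.G sp.b (projB sp.G sp.b x) = projB sp.G sp.b x := by
  have h := sp.cB_projB x
  show (Finsupp.linearCombination S sp.b) (cB sp.G (projB sp.G sp.b x))
    = (Finsupp.linearCombination S sp.b) (cB sp.G x)
  rw [h]

theorem isB_projB (x : LaurentSeries S) : sp.IsB (projB sp.G sp.b x) :=
  sp.projB_projB x

theorem isB_b {n : ℕ} (hn : n ∉ sp.G) : sp.IsB (sp.b n) := by
  have h : Finsupp.linearCombination S sp.b (Finsupp.single n 1) = sp.b n := by
    simp [Finsupp.linearCombination_single]
  unfold IsB projB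
  rw [LinearMap.comp_apply]
  conv_lhs => rw [← h]
  rw [sp.cB_linearCombination, h]
  intro m hm
  rw [Finsupp.single_apply, if_neg]
  rintro rfl
  exact hn hm

theorem isB_one : sp.IsB 1 := by
  rw [← sp.b_zero]
  exact sp.isB_b sp.zero_notMem

/-- The submodule `B`. -/
def Bsub : Submodule S (LaurentSeries S) where
  carrier := {x | sp.IsB x}
  add_mem' := by
    intro x y hx hy
    show projB sp.G sp.b (x + y) = x + y
    rw [map_add, hx, hy]
  zero_mem' := by
    show projB sp.G sp.b 0 = 0
    rw [map_zero]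
  smul_mem' := by
    intro c x hx
    show projB sp.G sp.b (c • x) = c • x
    rw [map_smul, hx]

theorem mem_Bsub {x : LaurentSeries S} : x ∈ sp.Bsub ↔ sp.IsB x := Iff.rfl

theorem IsB.mul {x y : LaurentSeries S} (hx : sp.IsB x) (hy : sp.IsB y) : sp.IsB (x * y) := by
  rw [← mem_Bsub]
  have ex : x = ∑ n ∈ (cB sp.G x).support, (cB sp.G x n) • sp.b n := by
    conv_lhs => rw [← hx]
    exact projB_apply _ _ x
  have ey : y = ∑ n ∈ (cB sp.G y).support, (cB sp.G y n) • sp.b n := by
    conv_lhs => rw [← hy]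
    exact projB_apply _ _ y
  have e : x * y = (∑ n ∈ (cB sp.G x).support, (cB sp.G x n) • sp.b n)
      * (∑ n ∈ (cB sp.G y).support, (cB sp.G y n) • sp.b n) := by
    rw [← ex, ← ey]
  rw [e, Finset.sum_mul_sum]
  refine Submodule.sum_mem _ fun n hn => Submodule.sum_mem _ fun m hm => ?_
  have hnG : n ∉ sp.G := fun h => (Finsupp.mem_support_iff.mp hn) (sp.cB_eq_zero_of_mem x h)
  have hmG : m ∉ sp.G := fun h => (Finsupp.mem_support_iff.mp hm) (sp.cB_eq_zero_of_mem y h)
  rw [smul_mul_smul_laurent]
  exact Submodule.smul_mem _ _ (sp.mul_b n hnG m hmG)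

/-- Elements of `B` with coordinates in `I` have all coefficients in `I`. -/
theorem IsB.mem_coeffIdeal {I : Ideal S} {x : LaurentSeries S} (hx : sp.IsB x)
    (h : ∀ n : ℕ, n ∉ sp.G → x.coeff (-(n : ℤ)) ∈ I) : x ∈ coeffIdeal I := by
  have ex : x = ∑ n ∈ (cB sp.G x).support, (cB sp.G x n) • sp.b n := by
    conv_lhs => rw [← hx]
    exact projB_apply _ _ x
  rw [ex]
  refine (coeffIdeal I).sum_mem fun n hn => ?_
  have hnG : n ∉ sp.G := fun h => (Finsupp.mem_support_iff.mp hn) (sp.cB_eq_zero_of_mem x h)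
  refine smul_mem_coeffIdeal ?_ _
  rw [cB_apply, if_neg hnG]
  exact h n hnG

theorem projB_mem_coeffIdeal {I : Ideal S} {x : LaurentSeries S} (hx : x ∈ coeffIdeal I) :
    projB sp.G sp.b x ∈ coeffIdeal I := by
  rw [projB_apply]
  refine (coeffIdeal I).sum_mem fun n _ => smul_mem_coeffIdeal ?_ _
  rw [cB_apply]
  split_ifs
  · exact I.zero_mem
  · exact hx _

/-- The coefficient of `projB x` at `t^{-n}`, `n ∉ G`. -/
theorem coeff_projB (x : LaurentSeries S) {n : ℕ} (hn : n ∉ sp.G) :
    (projB sp.G sp.b x).coeff (-(n : ℤ)) = x.coeff (-(n : ℤ)) := by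
  have h := DFunLike.congr_fun (sp.cB_projB x) n
  rwa [cB_apply, cB_apply, if_neg hn, if_neg hn] at h

end RRSplitting

end Fermat.Agent.S19.H855
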